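/-
S44lib / H4 / Generic  (helper4)  — Project LSq, block (GEN)

ONE function with simple zeros at finitely many prescribed points.  `F / K` a curve of genus `g` over
an infinite field, `y ∈ F` non-constant (`deg (y)_∞ > 0`), `S` a finite set of places where `y` is
regular:

* `exists_simple_zeros` : there is `u ≠ 0`, regular wherever `y` is (`u ∈ regAway K y`), with a
                          SIMPLE zero at every point of `S`;
* `exists_unramified`   : (GEN) in helper1's shape: `∃ u ∈ regAway K y, ∀ x ∈ S, ∃ v, x.ord (u - v) = 1`.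

[`M := m (y)_∞ − Σ_{x ∈ S} x` with `m = 2 g + #S`, so `deg M ≥ 2 g`, and helper6's
`S19lib.B.exists_section_avoiding` gives `u ∈ L(M)` with `ord_x u = −M x = 1` exactly, for all `x ∈ S`.]
-/
import Fermat.Agent.S19lib.B.Avoid
import Fermat.Agent.LSb.Unit.Nodes
import Fermat.Agent.ProgramR.FunctionField.PlaceDedekind

set_option autoImplicit false
set_option linter.unusedSectionVars false

noncomputable section

namespace Fermat.Agent.S44lib.H4

open AlgebraicCurve Module
open Fermat.Agent.S18lib Fermat.Agent.S18lib.Cech Fermat.Agent.LSb.Unit Fermat.Agent.ProgramR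

variable {K F : Type*} [Field K] [Field F] [Algebra K F]

/-- the sum of the points of a finite set, evaluated -/
theorem sum_single_apply [DecidableEq (Place K F)] (S : Finset (Place K F)) (P : Place K F) :
    (∑ x ∈ S, (Finsupp.single x (1 : ℤ) : Divisor K F)) P = if P ∈ S then 1 else 0 := by
  rw [Finsupp.finsetSum_apply]
  simp only [Finsupp.single_apply]
  rw [Finset.sum_ite_eq' S P]

/-- **one function with simple zeros at the points of `S`**, regular wherever `y` is -/
theorem exists_simple_zeros [Infinite K] {g : ℕ} (hF : IsCurveOfGenus K F g)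
    [HasPrincipalDivisors K F] (y : F) (hdeg : 0 < Divisor.degree (polesOf (K := K) y))
    (S : Finset (Place K F)) (hS : ∀ x ∈ S, y ∈ x.toValuationSubring) :
    ∃ u ∈ regAway K y, u ≠ 0 ∧ ∀ x ∈ S, x.ord u = 1 := by
  classical
  set m : ℕ := 2 * g + S.card with hm
  set Md : Divisor K F := (m : ℤ) • polesOf (K := K) y -
    ∑ x ∈ S, (Finsupp.single x (1 : ℤ) : Divisor K F) with hMd
  -- `(y)_∞` vanishes wherever `y` is regular
  have hpole : ∀ Q : Place K F, y ∈ Q.toValuationSubring → polesOf (K := K) y Q = 0 := by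
    intro Q hQ
    rw [polesOf_apply]
    exact max_eq_right (by have := FF.ord_nonneg_of_mem Q hQ; omega)
  have hMapply : ∀ Q : Place K F, y ∈ Q.toValuationSubring →
      Md Q = -(if Q ∈ S then 1 else 0) := by
    intro Q hQ
    rw [hMd, Finsupp.sub_apply, Finsupp.smul_apply, hpole Q hQ, smul_zero, sum_single_apply,
      zero_sub]
  -- the degree of `M`
  have hdegS : Divisor.degree (∑ x ∈ S, (Finsupp.single x (1 : ℤ) : Divisor K F)) = S.card := by
    rw [map_sum, Finset.sum_congr rfl fun x _ => by
      rw [Divisor.degree_single, hF.deg_eq_one x]]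
    simp
  have hdegM : 2 * (g : ℤ) ≤ Divisor.degree Md := by
    rw [hMd, map_sub, map_zsmul, smul_eq_mul, hdegS]
    have h1 : (1 : ℤ) ≤ Divisor.degree (polesOf (K := K) y) := hdeg
    have h2 : ((m : ℕ) : ℤ) * 1 ≤ (m : ℤ) * Divisor.degree (polesOf (K := K) y) :=
      mul_le_mul_of_nonneg_left h1 (Nat.cast_nonneg m)
    have h3 : ((m : ℕ) : ℤ) = 2 * g + S.card := by rw [hm]; push_cast; ring
    linarith
  obtain ⟨u, huM, hu0, huS⟩ := S19lib.B.exists_section_avoiding hF hdegM S
  refine ⟨u, fun Q hQ => ?_, hu0, fun x hx => ?_⟩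
  · -- regular wherever `y` is
    have h1 := (mem_rr_of_ne hu0).1 huM Q
    rw [hMapply Q hQ, neg_neg] at h1
    apply FF.mem_of_ord_nonneg
    split_ifs at h1 <;> omega
  · rw [huS x hx, hMapply x (hS x hx), if_pos hx, neg_neg]

/-- **(GEN)**: one function, regular off the poles of `y`, unramified at every point of `S` -/
theorem exists_unramified [Infinite K] {g : ℕ} (hF : IsCurveOfGenus K F g)
    [HasPrincipalDivisors K F] (y : F) (hdeg : 0 < Divisor.degree (polesOf (K := K) y))
    (S : Finset (Place K F)) (hS : ∀ x ∈ S, y ∈ x.toValuationSubring) :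
    ∃ u ∈ regAway K y, ∀ x ∈ S, ∃ v : K, x.ord (u - algebraMap K F v) = 1 := by
  obtain ⟨u, hu, -, huS⟩ := exists_simple_zeros hF y hdeg S hS
  exact ⟨u, hu, fun x hx => ⟨0, by rw [map_zero, sub_zero]; exact huS x hx⟩⟩

end Fermat.Agent.S44lib.H4
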