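/-
S44lib / H4 / Kron  (helper4)  — Project LSq, instance block (N4)(ii), first half

**The Kronecker functions** `kron a = α g − (β g) ^ q ∈ FBar (M q)` for an integral modular function
`g = elemL a` of level `M` whose `t`-expansion coefficients are fixed by Frobenius modulo `q`
(`FrobFixed q a`: `a_n ^ q ≡ a_n mod q`, e.g. coefficients in `ℤ_(q) + q A`):

* `kron_mem₁`, `redF₁_kron` : `kron a ∈ O₁`, `red₁ (kron a) = ḡ − ḡ ^ (q * q)`;
* `kron_div_mem₂`           : `kron a / q ∈ O₂`  (Frobenius congruence `g(t^q) ≡ g(t)^q mod q` on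
                              `t`-expansions: `w_q (kron a) = g(t^q) − g(t)^q ∈ q A((t))`);
* `kron_mem_regAway`        : `kron a` is regular off the cusps if `g` is;
* `IsKronLike` (`z ∈ O₁`, `z / q ∈ O₂`, regular off the cusps) is stable under `A`-linear
  combinations (`IsKronLike.add`, `IsKronLike.smul`, `IsKronLike.sum`), with `red₁` additive.
-/
import Mathlib
import Fermat.Agent.LSb.Old.Lift
import Fermat.Agent.LSb.Unit.ModRed
import Fermat.Agent.S37lib.ConjNorm.FrobSeries
import Fermat.Agent.S36lib.Desc.FixF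
import Fermat.Agent.S36lib.Fin.CuspInst

set_option autoImplicit false
set_option linter.unusedSectionVars false
set_option linter.style.haveILetI false

noncomputable section

namespace Fermat.Agent.S44lib.H4

open AlgebraicCurve ModularCurve HahnSeries
open Fermat.Agent.S18lib Fermat.Agent.ProgramR Fermat.Agent.LSb Fermat.Agent.LSb.Unit

local notation "Qb" => AlgebraicClosure ℚ

variable {A : ValuationSubring (AlgebraicClosure ℚ)}

local notation "kA" => IsLocalRing.ResidueField A

/-! ### the Frobenius congruence on `A`-integral Laurent series -/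

section Series

variable {q : ℕ} [NeZero q] [hq : Fact q.Prime]

/-- the coefficients are fixed by Frobenius modulo `q` -/
def FrobFixed (q : ℕ) (a : LaurentSeries A) : Prop :=
  ∀ n : ℤ, ∃ b : A, a.coeff n ^ q - a.coeff n = (q : A) * b

theorem natCast_mem_nonunits_of_liesOver (hA : A.LiesOverPrime q) :
    ((q : ℕ) : A) ∈ nonunits A := by
  rw [mem_nonunits_iff]
  intro hu
  have h2 : A.valuation ((((q : ℕ) : A) : A) : Qb) = 1 := (A.valuation_eq_one_iff _).mp hu
  have h3 : A.valuation (q : Qb) < 1 := (A.mem_nonunits_iff (x := (q : Qb))).mp hA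
  have e : ((((q : ℕ) : A) : A) : Qb) = (q : Qb) := by push_cast; rfl
  rw [e] at h2
  exact absurd h2 h3.ne

theorem residue_natCast_eq_zero (hA : A.LiesOverPrime q) :
    IsLocalRing.residue A ((q : ℕ) : A) = 0 := by
  rw [IsLocalRing.residue_eq_zero_iff, IsLocalRing.mem_maximalIdeal]
  exact natCast_mem_nonunits_of_liesOver hA

/-- the reduction of a Frobenius-fixed series has coefficients in the prime field -/
theorem FrobFixed.frobenius_toK (hA : A.LiesOverPrime q) {a : LaurentSeries A}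
    (ha : FrobFixed q a) :
    haveI := Gink.charP_residueField A hq.out hA
    coeffMap (frobenius kA q) (V.toK A a) = V.toK A a := by
  haveI := Gink.charP_residueField A hq.out hA
  ext n
  rw [coeffMap_coeff, V.toK_coeff, frobenius_def]
  obtain ⟨b, hb⟩ := ha n
  have h1 := congrArg (IsLocalRing.residue A) hb
  rw [map_sub, map_pow, map_mul, residue_natCast_eq_zero hA, zero_mul] at h1
  exact sub_eq_zero.1 h1

/-- **Frobenius congruence**: `a(t^q) − a(t)^q ∈ q A((t))` for a Frobenius-fixed series `a` -/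
theorem FrobFixed.exists_toL_eq (hA : A.LiesOverPrime q) {a : LaurentSeries A}
    (ha : FrobFixed q a) :
    ∃ y : LaurentSeries A,
      V.toL A y = HahnSeries.C ((q : Qb)⁻¹) * V.toL A (qExpand A q a - a ^ q) := by
  set I : Ideal A := Ideal.span {((q : ℕ) : A)} with hI
  haveI : CharP (A ⧸ I) q := CharP.quotient A q (natCast_mem_nonunits_of_liesOver hA)
  set π : A →+* A ⧸ I := Ideal.Quotient.mk I with hπ
  have hfix : coeffMap (frobenius (A ⧸ I) q) (coeffMap π a) = coeffMap π a := by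
    ext n
    rw [coeffMap_coeff, coeffMap_coeff, frobenius_def]
    obtain ⟨b, hb⟩ := ha n
    have h1 := congrArg π hb
    rw [map_sub, map_pow, map_mul] at h1
    have h2 : π ((q : ℕ) : A) = 0 :=
      Ideal.Quotient.eq_zero_iff_mem.2 (Ideal.subset_span (Set.mem_singleton _))
    rw [h2, zero_mul] at h1
    exact sub_eq_zero.1 h1
  have key : coeffMap π (qExpand A q a - a ^ q) = 0 := by
    rw [map_sub, coeffMap_qExpand, map_pow, S37lib.ConjNorm.pow_char_eq_qExpand q (coeffMap π a),
      hfix, sub_self]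
  have hmem : ∀ n, (qExpand A q a - a ^ q).coeff n ∈ I := by
    intro n
    have h1 := congrArg (fun z : LaurentSeries (A ⧸ I) => z.coeff n) key
    simp only [coeffMap_coeff, HahnSeries.coeff_zero] at h1
    exact Ideal.Quotient.eq_zero_iff_mem.1 h1
  apply S36lib.Desc.exists_toL_eq
  intro n
  rw [HahnSeries.C_mul_eq_smul, HahnSeries.coeff_smul, smul_eq_mul, V.toL_coeff]
  obtain ⟨b, hb⟩ := Ideal.mem_span_singleton'.1 (hmem n)
  rw [← hb]
  have hq0 : (q : Qb) ≠ 0 := by exact_mod_cast hq.out.ne_zero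
  have e : (q : Qb)⁻¹ * ((b * ((q : ℕ) : A) : A) : Qb) = (b : Qb) := by
    push_cast
    field_simp
  rw [e]
  exact b.2

end Series

/-! ### the Kronecker functions -/

section Kron

variable {M q : ℕ} [NeZero M] [NeZero q] [hq : Fact q.Prime]
variable (hqM : ¬ q ∣ M) (hA : A.LiesOverPrime q)
variable {D1 D2 : GaussDatum A (FBar (M * q)) (FRes A M)}
variable (h1 : Old.IsGaussOne D1) (h2 : Old.IsGaussTwo D1 D2 (wqR M q hqM))

/-- **the Kronecker function** `α g − (β g) ^ q`, `g = elemL a` -/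
def kron (M q : ℕ) [NeZero M] [NeZero q] (a : V.IntRing M A) : FBar (M * q) :=
  Old.alpha M q (V.elemL a) - (Old.beta M q (V.elemL a)) ^ q

include h1 hA in
theorem kron_mem₁ (a : V.IntRing M A) : kron M q a ∈ D1.O :=
  D1.O.sub_mem (Old.alpha_elemL_mem h1 a).1 (D1.O.pow_mem (Old.beta_elemL_mem hA h1 a).1 q)

include h1 hA in
/-- `red₁ (kron a) = ḡ − ḡ ^ (q²)` -/
theorem redF₁_kron {a : V.IntRing M A} (ha : FrobFixed q a.1) :
    D1.redF (kron M q a) = V.elemK a - V.elemK a ^ (q * q) := by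
  haveI := Gink.charP_residueField A hq.out hA
  have hα := Old.alpha_elemL_mem (q := q) h1 a
  have hβ := Old.beta_elemL_mem hA h1 a
  have hV : Old.Vq M q A hA (V.elemK a) = V.elemK a ^ q := by
    apply Subtype.ext
    rw [Old.coe_Vq, SubmonoidClass.coe_pow, S37lib.ConjNorm.pow_char_eq_qExpand q, V.coe_elemK,
      ha.frobenius_toK hA]
  rw [kron, D1.redF_sub hα.1 (D1.O.pow_mem hβ.1 q), D1.redF_pow hβ.1, hα.2, hβ.2, hV, ← pow_mul]

include hqM h1 h2 hA in
/-- **`kron a / q ∈ O₂`** -/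
theorem kron_div_mem₂ {a : V.IntRing M A} (ha : FrobFixed q a.1) :
    (algebraMap Qb (FBar (M * q)) (q : Qb))⁻¹ * kron M q a ∈ D2.O := by
  obtain ⟨y, hy⟩ := ha.exists_toL_eq hA
  rw [h2.mem_iff]
  -- `w_q (kron a / q)` as a `t`-expansion
  have hw : wqR M q hqM ((algebraMap Qb (FBar (M * q)) (q : Qb))⁻¹ * kron M q a) =
      (algebraMap Qb (FBar (M * q)) (q : Qb))⁻¹ *
        (Old.beta M q (V.elemL a) - (Old.alpha M q (V.elemL a)) ^ q) := by
    rw [map_mul, map_inv₀, kron, map_sub, map_pow]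
    have e1 : wqR M q hqM (Old.alpha M q (V.elemL a)) = Old.beta M q (V.elemL a) :=
      Val.wq_alpha M q hq.out hqM _
    have e2 : wqR M q hqM (Old.beta M q (V.elemL a)) = Old.alpha M q (V.elemL a) :=
      Val.wq_beta M q hq.out hqM _
    have e3 : wqR M q hqM (algebraMap Qb (FBar (M * q)) (q : Qb)) =
        algebraMap Qb (FBar (M * q)) (q : Qb) :=
      (Val.wq M q hq.out hqM).commutes _
    rw [e1, e2, e3]
  have hcoe : (((algebraMap Qb (FBar (M * q)) (q : Qb))⁻¹ *
      (Old.beta M q (V.elemL a) - (Old.alpha M q (V.elemL a)) ^ q) : FBar (M * q)) :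
        LaurentSeries Qb) = V.toL A y := by
    rw [hy, MulMemClass.coe_mul, IntermediateField.coe_inv, AddSubgroupClass.coe_sub,
      SubmonoidClass.coe_pow, Old.coe_beta, Old.coe_alpha, V.coe_elemL, map_sub, map_pow]
    have e4 : V.toL A (qExpand A q a.1) = qExpand Qb q (V.toL A a.1) := by
      rw [V.toL, coeffMap_qExpand]
    have e5 : ((algebraMap Qb (FBar (M * q)) (q : Qb) : FBar (M * q)) : LaurentSeries Qb) =
        HahnSeries.C (q : Qb) := by
      show algebraMap Qb (LaurentSeries Qb) (q : Qb) = HahnSeries.C (q : Qb)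
      rw [algebraMap_laurentSeries_eq_single, HahnSeries.C_apply]
    rw [e4, e5, ← map_inv₀]
  have hyF : V.toL A y ∈ modularFunctionFieldBar (M * q) := by
    rw [← hcoe]
    exact SetLike.coe_mem _
  have he : (algebraMap Qb (FBar (M * q)) (q : Qb))⁻¹ *
      (Old.beta M q (V.elemL a) - (Old.alpha M q (V.elemL a)) ^ q) =
        (⟨V.toL A y, hyF⟩ : FBar (M * q)) := Subtype.ext hcoe
  rw [hw, he]
  exact h1.mem y hyF

/-- `kron a` is regular off the cusps if `g` is -/
theorem kron_mem_regAway {a : V.IntRing M A}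
    (hreg : V.elemL a ∈ regAway Qb (Gin0.jF M)) :
    kron M q a ∈ regAway Qb (Gin0.jF (M * q)) :=
  (regAway Qb (Gin0.jF (M * q))).sub_mem (S36lib.Fin.heckeAlphaBar_mem_regAway M q hreg)
    ((regAway Qb (Gin0.jF (M * q))).pow_mem (S36lib.Fin.heckeBetaBar_mem_regAway M q hreg) q)

/-! ### `A`-linear combinations -/

/-- `z ∈ O₁`, `z / q ∈ O₂`, `z` regular off the cusps -/
structure IsKronLike (D1 D2 : GaussDatum A (FBar (M * q)) (FRes A M)) (z : FBar (M * q)) :
    Prop where
  mem₁ : z ∈ D1.O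
  div_mem₂ : (algebraMap Qb (FBar (M * q)) (q : Qb))⁻¹ * z ∈ D2.O
  reg : z ∈ regAway Qb (Gin0.jF (M * q))

include hqM h1 h2 hA in
theorem isKronLike_kron {a : V.IntRing M A} (ha : FrobFixed q a.1)
    (hreg : V.elemL a ∈ regAway Qb (Gin0.jF M)) : IsKronLike D1 D2 (kron M q a) :=
  ⟨kron_mem₁ hA h1 a, kron_div_mem₂ hqM hA h1 h2 ha, kron_mem_regAway hreg⟩

theorem IsKronLike.zero : IsKronLike D1 D2 (0 : FBar (M * q)) :=
  ⟨D1.O.zero_mem, by rw [mul_zero]; exact D2.O.zero_mem, Subring.zero_mem _⟩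

theorem IsKronLike.add {z w : FBar (M * q)} (hz : IsKronLike D1 D2 z) (hw : IsKronLike D1 D2 w) :
    IsKronLike D1 D2 (z + w) :=
  ⟨D1.O.add_mem _ _ hz.mem₁ hw.mem₁, by rw [mul_add]; exact D2.O.add_mem _ _ hz.div_mem₂ hw.div_mem₂,
    Subring.add_mem _ hz.reg hw.reg⟩

theorem IsKronLike.smul (c : A) {z : FBar (M * q)} (hz : IsKronLike D1 D2 z) :
    IsKronLike D1 D2 (algebraMap Qb (FBar (M * q)) (c : Qb) * z) := by
  refine ⟨D1.smul_mem c hz.mem₁, ?_, Subring.mul_mem _ (algebraMap_mem_regAway _ _) hz.reg⟩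
  have e : (algebraMap Qb (FBar (M * q)) (q : Qb))⁻¹ * (algebraMap Qb (FBar (M * q)) (c : Qb) * z) =
      algebraMap Qb (FBar (M * q)) (c : Qb) * ((algebraMap Qb (FBar (M * q)) (q : Qb))⁻¹ * z) := by
    ring
  rw [e]
  exact D2.smul_mem c hz.div_mem₂

theorem IsKronLike.sum {ι : Type*} (s : Finset ι) (c : ι → A) (z : ι → FBar (M * q))
    (hz : ∀ i ∈ s, IsKronLike D1 D2 (z i)) :
    IsKronLike D1 D2 (∑ i ∈ s, algebraMap Qb (FBar (M * q)) (c i : Qb) * z i) := by
  classical
  induction s using Finset.induction_on with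
  | empty =>
    rw [Finset.sum_empty]
    exact IsKronLike.zero
  | insert i s hi ih =>
    rw [Finset.sum_insert hi]
    exact ((hz i (Finset.mem_insert_self i s)).smul (c i)).add
      (ih fun j hj => hz j (Finset.mem_insert_of_mem hj))

/-- `red₁` of an `A`-linear combination -/
theorem redF₁_sum_smul {ι : Type*} (s : Finset ι) (c : ι → A) (z : ι → FBar (M * q))
    (hz : ∀ i ∈ s, z i ∈ D1.O) :
    D1.redF (∑ i ∈ s, algebraMap Qb (FBar (M * q)) (c i : Qb) * z i) =
      ∑ i ∈ s, IsLocalRing.residue A (c i) • D1.redF (z i) := by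
  rw [D1.redF_sum s _ fun i hi => D1.smul_mem (c i) (hz i hi)]
  exact Finset.sum_congr rfl fun i hi => D1.redF_smul (c i) (hz i hi)

end Kron

end Fermat.Agent.S44lib.H4
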