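/-
S44lib / H4 / KronPair  (helper4)  — Project LSq, instance block (N4)(ii), PAIR version

**The Kronecker function of a pair** `kron₂ a a' = α g − (β g') ^ q ∈ FBar (M q)`, `g = elemL a`,
`g' = elemL a'` integral modular functions of level `M` whose `t`-expansion coefficients satisfy the
congruence `FrobPair q a a'` : `a_n ≡ a'_n ^ q mod q A` for all `n`
(e.g. `g' = φ⁻¹ g` for a Frobenius lift `φ` and `g` with coefficients in the unramified ring).
The case `a' = a` is `FrobFixed` / `kron` of `H4/Kron`.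

* `kron₂_mem₁`, `redF₁_kron₂`   : `kron₂ a a' ∈ O₁`, `red₁ (kron₂ a a') = ḡ − (V_q ḡ') ^ q` (no congruence
                                  needed);
* `redF₁_kron₂_of_frobPair`     : under `FrobPair`, `red₁ (kron₂ a a') = ḡ − V_q (V_q ḡ)`;
* `kron₂_div_mem₂`              : under `FrobPair`, `kron₂ a a' / q ∈ O₂`
                                  (`w_q (kron₂ a a') = g(t^q) − g'(t)^q ∈ q A((t))`);
* `kron₂_mem_regAway`           : `kron₂ a a'` is regular off the cusps if `g`, `g'` are;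
* `isKronLike_kron₂`            : so `kron₂ a a'` is `IsKronLike` (`H4/Kron`), to which `mod_reg_node'`
                                  (`H4/RegNode`) applies.
-/
import Fermat.Agent.S44lib.H4.Kron
import Fermat.Agent.LSb.Unit.Instance

set_option autoImplicit false
set_option linter.unusedSectionVars false
set_option linter.style.haveILetI false

noncomputable section

namespace Fermat.Agent.S44lib.H4

open AlgebraicCurve ModularCurve HahnSeries
open Fermat.Agent.S18lib Fermat.Agent.ProgramR Fermat.Agent.LSb Fermat.Agent.LSb.Unit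

local notation "Qb" => AlgebraicClosure ℚ

variable {A : ValuationSubring (AlgebraicClosure ℚ)}

local notation "kA" => IsLocalRing.ResidueField A

/-! ### the congruence on `A`-integral Laurent series -/

section Series

variable {q : ℕ} [NeZero q] [hq : Fact q.Prime]

/-- `a_n ≡ a'_n ^ q mod q A` for all `n` -/
def FrobPair (q : ℕ) (a a' : LaurentSeries A) : Prop :=
  ∀ n : ℤ, ∃ b : A, a.coeff n - a'.coeff n ^ q = (q : A) * b

theorem FrobFixed.frobPair {a : LaurentSeries A} (ha : FrobFixed q a) : FrobPair q a a := by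
  intro n
  obtain ⟨b, hb⟩ := ha n
  refine ⟨-b, ?_⟩
  rw [mul_neg, ← hb]
  ring

theorem FrobPair.frobFixed {a : LaurentSeries A} (ha : FrobPair q a a) : FrobFixed q a := by
  intro n
  obtain ⟨b, hb⟩ := ha n
  refine ⟨-b, ?_⟩
  rw [mul_neg, ← hb]
  ring

/-- the reductions: `ā = Fr ā'` coefficientwise -/
theorem FrobPair.toK_eq (hA : A.LiesOverPrime q) {a a' : LaurentSeries A}
    (h : FrobPair q a a') :
    haveI := Gink.charP_residueField A hq.out hA
    V.toK A a = coeffMap (frobenius kA q) (V.toK A a') := by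
  haveI := Gink.charP_residueField A hq.out hA
  ext n
  rw [coeffMap_coeff, V.toK_coeff, V.toK_coeff, frobenius_def]
  obtain ⟨b, hb⟩ := h n
  have h1 := congrArg (IsLocalRing.residue A) hb
  rw [map_sub, map_pow, map_mul, residue_natCast_eq_zero hA, zero_mul] at h1
  exact sub_eq_zero.1 h1

/-- **Frobenius congruence for a pair**: `a(t^q) − a'(t)^q ∈ q A((t))` -/
theorem FrobPair.exists_toL_eq (hA : A.LiesOverPrime q) {a a' : LaurentSeries A}
    (h : FrobPair q a a') :
    ∃ y : LaurentSeries A,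
      V.toL A y = HahnSeries.C ((q : Qb)⁻¹) * V.toL A (qExpand A q a - a' ^ q) := by
  set I : Ideal A := Ideal.span {((q : ℕ) : A)} with hI
  haveI : CharP (A ⧸ I) q := CharP.quotient A q (natCast_mem_nonunits_of_liesOver hA)
  set π : A →+* A ⧸ I := Ideal.Quotient.mk I with hπ
  have hfix : coeffMap π a = coeffMap (frobenius (A ⧸ I) q) (coeffMap π a') := by
    ext n
    rw [coeffMap_coeff, coeffMap_coeff, coeffMap_coeff, frobenius_def]
    obtain ⟨b, hb⟩ := h n
    have h1 := congrArg π hb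
    rw [map_sub, map_pow, map_mul] at h1
    have h2 : π ((q : ℕ) : A) = 0 :=
      Ideal.Quotient.eq_zero_iff_mem.2 (Ideal.subset_span (Set.mem_singleton _))
    rw [h2, zero_mul] at h1
    exact sub_eq_zero.1 h1
  have key : coeffMap π (qExpand A q a - a' ^ q) = 0 := by
    rw [map_sub, coeffMap_qExpand, map_pow, S37lib.ConjNorm.pow_char_eq_qExpand q (coeffMap π a'),
      ← hfix, sub_self]
  have hmem : ∀ n, (qExpand A q a - a' ^ q).coeff n ∈ I := by
    intro n
    have h1 := congrArg (fun z : LaurentSeries (A ⧸ I) => z.coeff n) key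
    simp only [coeffMap_coeff, HahnSeries.coeff_zero] at h1
    exact Ideal.Quotient.eq_zero_iff_mem.1 h1
  apply S36lib.Desc.exists_toL_eq
  intro n
  rw [HahnSeries.C_mul_eq_smul, HahnSeries.coeff_smul, smul_eq_mul, V.toL_coeff]
  obtain ⟨b, hb⟩ := Ideal.mem_span_singleton'.1 (hmem n)
  rw [← hb]
  have hq0 : (q : Qb) ≠ 0 := by exact_mod_cast hq.out.ne_zero
  have e : (q : Qb)⁻¹ * ((b * ((q : ℕ) : A) : A) : Qb) = (b : Qb) := by
    push_cast
    field_simp
  rw [e]
  exact b.2

end Series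

/-! ### the Kronecker function of a pair -/

section Kron

variable {M q : ℕ} [NeZero M] [NeZero q] [hq : Fact q.Prime]
variable (hqM : ¬ q ∣ M) (hA : A.LiesOverPrime q)
variable {D1 D2 : GaussDatum A (FBar (M * q)) (FRes A M)}
variable (h1 : Old.IsGaussOne D1) (h2 : Old.IsGaussTwo D1 D2 (wqR M q hqM))

/-- **the Kronecker function of a pair** `α g − (β g') ^ q`, `g = elemL a`, `g' = elemL a'` -/
def kron₂ (M q : ℕ) [NeZero M] [NeZero q] (a a' : V.IntRing M A) : FBar (M * q) :=
  Old.alpha M q (V.elemL a) - (Old.beta M q (V.elemL a')) ^ q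

theorem kron₂_self (a : V.IntRing M A) : kron₂ M q a a = kron M q a := rfl

include h1 hA in
theorem kron₂_mem₁ (a a' : V.IntRing M A) : kron₂ M q a a' ∈ D1.O :=
  D1.O.sub_mem (Old.alpha_elemL_mem h1 a).1 (D1.O.pow_mem (Old.beta_elemL_mem hA h1 a').1 q)

include h1 hA in
/-- `red₁ (kron₂ a a') = ḡ − (V_q ḡ') ^ q` (no congruence needed) -/
theorem redF₁_kron₂ (a a' : V.IntRing M A) :
    D1.redF (kron₂ M q a a') = V.elemK a - (VqR hA (V.elemK a')) ^ q := by
  have hα := Old.alpha_elemL_mem (q := q) h1 a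
  have hβ := Old.beta_elemL_mem hA h1 a'
  rw [kron₂, D1.redF_sub hα.1 (D1.O.pow_mem hβ.1 q), D1.redF_pow hβ.1, hα.2, hβ.2]
  rfl

/-- under the congruence, `(V_q ḡ') ^ q = V_q (V_q ḡ)` -/
theorem VqR_pow_of_frobPair {a a' : V.IntRing M A} (h : FrobPair q a.1 a'.1) :
    (VqR hA (V.elemK a')) ^ q = VqR hA (VqR hA (V.elemK a)) := by
  haveI := Gink.charP_residueField A hq.out hA
  apply Subtype.ext
  show ((VqR hA (V.elemK a') ^ q : FRes A M) : LaurentSeries kA) =
    ((Old.Vq M q A hA (Old.Vq M q A hA (V.elemK a)) : FRes A M) : LaurentSeries kA)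
  rw [SubmonoidClass.coe_pow, Old.coe_Vq, Old.coe_Vq, V.coe_elemK]
  show ((Old.Vq M q A hA (V.elemK a') : FRes A M) : LaurentSeries kA) ^ q = _
  rw [Old.coe_Vq, V.coe_elemK, S37lib.ConjNorm.pow_char_eq_qExpand q, coeffMap_qExpand,
    ← h.toK_eq hA]

include h1 in
/-- under the congruence, `red₁ (kron₂ a a') = ḡ − V_q (V_q ḡ)` -/
theorem redF₁_kron₂_of_frobPair {a a' : V.IntRing M A} (h : FrobPair q a.1 a'.1) :
    D1.redF (kron₂ M q a a') = V.elemK a - VqR hA (VqR hA (V.elemK a)) := by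
  rw [redF₁_kron₂ hA h1, VqR_pow_of_frobPair hA h]

include hqM h1 h2 hA in
/-- **`kron₂ a a' / q ∈ O₂`** -/
theorem kron₂_div_mem₂ {a a' : V.IntRing M A} (h : FrobPair q a.1 a'.1) :
    (algebraMap Qb (FBar (M * q)) (q : Qb))⁻¹ * kron₂ M q a a' ∈ D2.O := by
  obtain ⟨y, hy⟩ := h.exists_toL_eq hA
  rw [h2.mem_iff]
  -- `w_q (kron₂ a a' / q)` as a `t`-expansion
  have hw : wqR M q hqM ((algebraMap Qb (FBar (M * q)) (q : Qb))⁻¹ * kron₂ M q a a') =
      (algebraMap Qb (FBar (M * q)) (q : Qb))⁻¹ *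
        (Old.beta M q (V.elemL a) - (Old.alpha M q (V.elemL a')) ^ q) := by
    rw [map_mul, map_inv₀, kron₂, map_sub, map_pow]
    have e1 : wqR M q hqM (Old.alpha M q (V.elemL a)) = Old.beta M q (V.elemL a) :=
      Val.wq_alpha M q hq.out hqM _
    have e2 : wqR M q hqM (Old.beta M q (V.elemL a')) = Old.alpha M q (V.elemL a') :=
      Val.wq_beta M q hq.out hqM _
    have e3 : wqR M q hqM (algebraMap Qb (FBar (M * q)) (q : Qb)) =
        algebraMap Qb (FBar (M * q)) (q : Qb) :=
      (Val.wq M q hq.out hqM).commutes _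
    rw [e1, e2, e3]
  have hcoe : (((algebraMap Qb (FBar (M * q)) (q : Qb))⁻¹ *
      (Old.beta M q (V.elemL a) - (Old.alpha M q (V.elemL a')) ^ q) : FBar (M * q)) :
        LaurentSeries Qb) = V.toL A y := by
    rw [hy, MulMemClass.coe_mul, IntermediateField.coe_inv, AddSubgroupClass.coe_sub,
      SubmonoidClass.coe_pow, Old.coe_beta, Old.coe_alpha, V.coe_elemL, V.coe_elemL, map_sub,
      map_pow]
    have e4 : V.toL A (qExpand A q a.1) = qExpand Qb q (V.toL A a.1) := by
      rw [V.toL, coeffMap_qExpand]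
    have e5 : ((algebraMap Qb (FBar (M * q)) (q : Qb) : FBar (M * q)) : LaurentSeries Qb) =
        HahnSeries.C (q : Qb) := by
      show algebraMap Qb (LaurentSeries Qb) (q : Qb) = HahnSeries.C (q : Qb)
      rw [algebraMap_laurentSeries_eq_single, HahnSeries.C_apply]
    rw [e4, e5, ← map_inv₀]
  have hyF : V.toL A y ∈ modularFunctionFieldBar (M * q) := by
    rw [← hcoe]
    exact SetLike.coe_mem _
  have he : (algebraMap Qb (FBar (M * q)) (q : Qb))⁻¹ *
      (Old.beta M q (V.elemL a) - (Old.alpha M q (V.elemL a')) ^ q) =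
        (⟨V.toL A y, hyF⟩ : FBar (M * q)) := Subtype.ext hcoe
  rw [hw, he]
  exact h1.mem y hyF

/-- `kron₂ a a'` is regular off the cusps if `g`, `g'` are -/
theorem kron₂_mem_regAway {a a' : V.IntRing M A}
    (hreg : V.elemL a ∈ regAway Qb (Gin0.jF M)) (hreg' : V.elemL a' ∈ regAway Qb (Gin0.jF M)) :
    kron₂ M q a a' ∈ regAway Qb (Gin0.jF (M * q)) :=
  (regAway Qb (Gin0.jF (M * q))).sub_mem (S36lib.Fin.heckeAlphaBar_mem_regAway M q hreg)
    ((regAway Qb (Gin0.jF (M * q))).pow_mem (S36lib.Fin.heckeBetaBar_mem_regAway M q hreg') q)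

include hqM h1 h2 hA in
theorem isKronLike_kron₂ {a a' : V.IntRing M A} (h : FrobPair q a.1 a'.1)
    (hreg : V.elemL a ∈ regAway Qb (Gin0.jF M)) (hreg' : V.elemL a' ∈ regAway Qb (Gin0.jF M)) :
    IsKronLike D1 D2 (kron₂ M q a a') :=
  ⟨kron₂_mem₁ hA h1 a a', kron₂_div_mem₂ hqM hA h1 h2 h, kron₂_mem_regAway hreg hreg'⟩

end Kron

end Fermat.Agent.S44lib.H4
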