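/-
S44lib / H4 / RegNode  (helper4)  — Project LSq, instance block (N4)(ii), second half

**The second side of a node coordinate is automatic** (helper8's REG trick, two components).

ABSTRACT (`reg_two`): two Gauss data `G₁ G₂` on `F`, a node `(x₁, x₂)`, units `E E'` with
`E E' = π ^ m`, `ord_{x₁} red₁ E = m = ord_{x₂} red₂ E'` (in the application `E = Δ(t)/Δ(t^p)`,
`E' = w_p E`, `m = 12`), and `z` with `red₁ z` a SIMPLE zero at `x₁` and `z / π ∈ O₂`.  If (GLUE) holds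
for the single function `R = z ^ m / E`, then `z / π` is a unit of `O₂` and `red₂ (z / π)` has a SIMPLE
POLE at `x₂`; equivalently (`reg_two'`) `π / z ∈ O₂` is a unit whose reduction has a simple zero at
`x₂`: exactly the fields `z'_mem₂`, `z'_red₂`, `z'_ord₂` of `Ann.AnnDatum`.
[`R ∈ O₁` has a reduction of order `m - m = 0` at `x₁`, i.e. a nonzero value; `R = (z/π)^m E' ∈ O₂`;
by (GLUE) the same nonzero value appears at `x₂`.]

MODULAR (`mod_reg_node`, `mod_reg_node'`): level `M q`, `q ≥ 5`, `M` elliptic-free: for every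
`z ∈ FBar (M q)` regular off the cusps with `z ∈ O₁ ∩ q O₂` and `ord_{x₁ c} red₁ z = 1`.
-/
import Mathlib
import Fermat.Agent.S36lib.Reg.WqUnit
import Fermat.Agent.S36lib.Count.FrobNodes
import Fermat.Agent.S36lib.J.FrobSq

set_option autoImplicit false
set_option linter.unusedSectionVars false

noncomputable section

namespace Fermat.Agent.S44lib.H4

open AlgebraicCurve ModularCurve
open Fermat.Agent.S18lib Fermat.Agent.ProgramR Fermat.Agent.LSb Fermat.Agent.LSb.Unit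

/-! ### the abstract statement -/

section Abstract

variable {L : Type*} [Field L] {A : ValuationSubring L}
variable {F : Type*} [Field F] [Algebra L F]
variable {F₁ F₂ : Type*} [Field F₁] [Field F₂]
variable [Algebra (IsLocalRing.ResidueField A) F₁] [Algebra (IsLocalRing.ResidueField A) F₂]

/-- **REG at a node, two components**: `z / π` is a unit of `O₂` whose reduction has a simple pole
at `x₂` -/
theorem reg_two (G₁ : GaussDatum A F F₁) (G₂ : GaussDatum A F F₂)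
    (x₁ : Place (IsLocalRing.ResidueField A) F₁) (x₂ : Place (IsLocalRing.ResidueField A) F₂)
    {π : L} (hπ : π ≠ 0) {m : ℕ} (hm : 0 < m) {E E' z : F}
    (hEE' : E * E' = algebraMap L F (π ^ m))
    (hE₁ : G₁.redF E ≠ 0) (hordE : x₁.ord (G₁.redF E) = m)
    (hE'₂ : G₂.redF E' ≠ 0) (hordE' : x₂.ord (G₂.redF E') = m)
    (hz₁ : G₁.redF z ≠ 0) (hordz : x₁.ord (G₁.redF z) = 1)
    (hz₂ : (algebraMap L F π)⁻¹ * z ∈ G₂.O)
    (hglue : z ^ m * E⁻¹ ∈ G₁.O → z ^ m * E⁻¹ ∈ G₂.O →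
      ∃ α : IsLocalRing.ResidueField A,
        HasValueAt x₁ (G₁.redF (z ^ m * E⁻¹)) α ∧ HasValueAt x₂ (G₂.redF (z ^ m * E⁻¹)) α) :
    G₂.redF ((algebraMap L F π)⁻¹ * z) ≠ 0 ∧
      x₂.ord (G₂.redF ((algebraMap L F π)⁻¹ * z)) = -1 := by
  have hπF : algebraMap L F π ≠ 0 := (map_ne_zero _).2 hπ
  have hE0 : E ≠ 0 := by
    rintro rfl
    exact hE₁ G₁.redF_zero
  have hzO₁ : z ∈ G₁.O := G₁.mem_of_redF_ne_zero hz₁
  have hEi₁ : E⁻¹ ∈ G₁.O := G₁.inv_mem_of_redF_ne_zero hE₁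
  have hE'O₂ : E' ∈ G₂.O := G₂.mem_of_redF_ne_zero hE'₂
  -- `R` on the first component
  have hR₁ : z ^ m * E⁻¹ ∈ G₁.O := G₁.O.mul_mem _ _ (G₁.O.pow_mem hzO₁ m) hEi₁
  have hred₁ : G₁.redF (z ^ m * E⁻¹) = G₁.redF z ^ m * (G₁.redF E)⁻¹ := by
    rw [G₁.redF_mul (G₁.O.pow_mem hzO₁ m) hEi₁, G₁.redF_pow hzO₁, G₁.redF_inv hE₁]
  have hne₁ : G₁.redF (z ^ m * E⁻¹) ≠ 0 := by
    rw [hred₁]
    exact mul_ne_zero (pow_ne_zero m hz₁) (inv_ne_zero hE₁)
  have hord₁ : x₁.ord (G₁.redF (z ^ m * E⁻¹)) = 0 := by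
    rw [hred₁, x₁.ord_mul (pow_ne_zero m hz₁) (inv_ne_zero hE₁), S18lib.Cech.ord_pow, x₁.ord_inv,
      hordz, hordE]
    ring
  -- `R` on the second component
  have eR : z ^ m * E⁻¹ = ((algebraMap L F π)⁻¹ * z) ^ m * E' := by
    have hE'0 : E' ≠ 0 := by
      rintro rfl
      exact hE'₂ G₂.redF_zero
    have h1 : E⁻¹ = E' * (algebraMap L F π ^ m)⁻¹ := by
      rw [← map_pow, ← hEE', mul_inv, mul_comm E⁻¹, ← mul_assoc, mul_inv_cancel₀ hE'0, one_mul]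
    rw [h1, mul_pow, inv_pow]
    ring
  have hR₂ : z ^ m * E⁻¹ ∈ G₂.O := by
    rw [eR]
    exact G₂.O.mul_mem _ _ (G₂.O.pow_mem hz₂ m) hE'O₂
  have hred₂ : G₂.redF (z ^ m * E⁻¹) = G₂.redF ((algebraMap L F π)⁻¹ * z) ^ m * G₂.redF E' := by
    rw [eR, G₂.redF_mul (G₂.O.pow_mem hz₂ m) hE'O₂, G₂.redF_pow hz₂]
  -- (GLUE)
  obtain ⟨α, hα₁, hα₂⟩ := hglue hR₁ hR₂
  have hα : α ≠ 0 := by
    rintro rfl
    rcases hasValueAt_zero_iff.1 hα₁ with h | h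
    · exact hne₁ h
    · omega
  have hne₂ : G₂.redF (z ^ m * E⁻¹) ≠ 0 := hα₂.ne_zero hα
  have hord₂ : x₂.ord (G₂.redF (z ^ m * E⁻¹)) = 0 := hα₂.ord_eq_zero hα
  have hw : G₂.redF ((algebraMap L F π)⁻¹ * z) ≠ 0 := by
    intro h0
    apply hne₂
    rw [hred₂, h0, zero_pow hm.ne', zero_mul]
  refine ⟨hw, ?_⟩
  rw [hred₂, x₂.ord_mul (pow_ne_zero m hw) hE'₂, S18lib.Cech.ord_pow, hordE'] at hord₂
  have hm' : (0 : ℤ) < m := by exact_mod_cast hm
  nlinarith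

/-- **REG at a node, two components**, in the shape of the fields `z'_mem₂`, `z'_red₂`, `z'_ord₂` of
`Ann.AnnDatum`: `π / z` is a unit of `O₂` whose reduction has a simple zero at `x₂` -/
theorem reg_two' (G₁ : GaussDatum A F F₁) (G₂ : GaussDatum A F F₂)
    (x₁ : Place (IsLocalRing.ResidueField A) F₁) (x₂ : Place (IsLocalRing.ResidueField A) F₂)
    {π : L} (hπ : π ≠ 0) {m : ℕ} (hm : 0 < m) {E E' z : F}
    (hEE' : E * E' = algebraMap L F (π ^ m))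
    (hE₁ : G₁.redF E ≠ 0) (hordE : x₁.ord (G₁.redF E) = m)
    (hE'₂ : G₂.redF E' ≠ 0) (hordE' : x₂.ord (G₂.redF E') = m)
    (hz₁ : G₁.redF z ≠ 0) (hordz : x₁.ord (G₁.redF z) = 1)
    (hz₂ : (algebraMap L F π)⁻¹ * z ∈ G₂.O)
    (hglue : z ^ m * E⁻¹ ∈ G₁.O → z ^ m * E⁻¹ ∈ G₂.O →
      ∃ α : IsLocalRing.ResidueField A,
        HasValueAt x₁ (G₁.redF (z ^ m * E⁻¹)) α ∧ HasValueAt x₂ (G₂.redF (z ^ m * E⁻¹)) α) :
    algebraMap L F π * z⁻¹ ∈ G₂.O ∧ G₂.redF (algebraMap L F π * z⁻¹) ≠ 0 ∧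
      x₂.ord (G₂.redF (algebraMap L F π * z⁻¹)) = 1 := by
  obtain ⟨hw, hord⟩ := reg_two G₁ G₂ x₁ x₂ hπ hm hEE' hE₁ hordE hE'₂ hordE' hz₁ hordz hz₂ hglue
  have e : algebraMap L F π * z⁻¹ = ((algebraMap L F π)⁻¹ * z)⁻¹ := by
    rw [mul_inv, inv_inv]
  rw [e]
  refine ⟨G₂.inv_mem_of_redF_ne_zero hw, ?_, ?_⟩
  · rw [G₂.redF_inv hw]
    exact inv_ne_zero hw
  · rw [G₂.redF_inv hw, x₂.ord_inv, hord]
    rfl

end Abstract

/-! ### the modular instance -/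

section Modular

local notation "Qb" => AlgebraicClosure ℚ

variable {M q : ℕ} [NeZero M] [NeZero q] [hq : Fact q.Prime]
variable {A : ValuationSubring (AlgebraicClosure ℚ)}

local notation "kA" => IsLocalRing.ResidueField A

variable [HasPrincipalDivisors (AlgebraicClosure ℚ) (FBar M)]
variable [HasPrincipalDivisors (AlgebraicClosure ℚ) (FBar (M * q))]
variable [HasPrincipalDivisors (IsLocalRing.ResidueField A) (FRes A M)]

variable (hqM : ¬ q ∣ M) (hA : A.LiesOverPrime q)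
variable {D1 D2 : GaussDatum A (FBar (M * q)) (FRes A M)}
variable (h1 : Old.IsGaussOne D1) (h2 : Old.IsGaussTwo D1 D2 (wqR M q hqM))

include hqM h1 h2 in
/-- **the second side of a node coordinate, level `M q`, `q ≥ 5`, `M` elliptic-free**: if `z` is
regular off the cusps, `z ∈ O₁ ∩ q O₂`, and `red₁ z` has a simple zero at the node point `x₁ c`, then
`z / q` is a unit of `O₂` and `red₂ (z / q)` has a simple pole at `x₂ c` -/
theorem mod_reg_node (h5 : 5 ≤ q) (hν2 : nuTwo M = 0) (hν3 : nuThree M = 0) {gM : ℕ}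
    (hFk : IsCurveOfGenus kA (FRes A M) gM) {z : FBar (M * q)}
    (hzreg : z ∈ regAway Qb (Gin0.jF (M * q))) (hz₁ : D1.redF z ≠ 0)
    (hz₂ : (algebraMap Qb (FBar (M * q)) (q : Qb))⁻¹ * z ∈ D2.O) (c : Fin (modS D1))
    (hord : (modX₁ hA D1 c).ord (D1.redF z) = 1) :
    D2.redF ((algebraMap Qb (FBar (M * q)) (q : Qb))⁻¹ * z) ≠ 0 ∧
      (modX₂ D1 c).ord (D2.redF ((algebraMap Qb (FBar (M * q)) (q : Qb))⁻¹ * z)) = -1 := by
  have hq0 : (q : Qb) ≠ 0 := by exact_mod_cast hq.out.ne_zero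
  have hord12 := S36lib.Count.ord_H₂_modX_five_le h5 hqM hA hν2 hν3 h1 c
  refine reg_two D1 D2 (modX₁ hA D1 c) (modX₂ D1 c) hq0 (m := 12) (by norm_num)
    (E := X0F (M * q) q (dvd_level M q)) (E' := Yw M q hqM)
    (S36lib.Reg.X0F_mul_Yw M q hqM) (H₂_ne_zero h1) ?_ ?_ ?_ hz₁ hord hz₂ ?_
  · exact_mod_cast hord12.1
  · rw [redF₂_Yw hqM h2]
    exact H₂_ne_zero h1
  · rw [redF₂_Yw hqM h2]
    exact_mod_cast hord12.2
  · intro hR₁ hR₂
    refine S36lib.J.mod_glue_regAway hqM hA h1 h2 hFk ?_ hR₁ hR₂ c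
    exact (regAway Qb (Gin0.jF (M * q))).mul_mem ((regAway Qb (Gin0.jF (M * q))).pow_mem hzreg 12)
      (X0F_inv_mem_regAway (M * q) q (dvd_level M q))

include hqM h1 h2 in
/-- the same in the shape of the fields `z'_mem₂`, `z'_red₂`, `z'_ord₂` of `Ann.AnnDatum`
(`pi c = q`): `q / z` is a unit of `O₂` whose reduction has a simple zero at `x₂ c` -/
theorem mod_reg_node' (h5 : 5 ≤ q) (hν2 : nuTwo M = 0) (hν3 : nuThree M = 0) {gM : ℕ}
    (hFk : IsCurveOfGenus kA (FRes A M) gM) {z : FBar (M * q)}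
    (hzreg : z ∈ regAway Qb (Gin0.jF (M * q))) (hz₁ : D1.redF z ≠ 0)
    (hz₂ : (algebraMap Qb (FBar (M * q)) (q : Qb))⁻¹ * z ∈ D2.O) (c : Fin (modS D1))
    (hord : (modX₁ hA D1 c).ord (D1.redF z) = 1) :
    algebraMap Qb (FBar (M * q)) (q : Qb) * z⁻¹ ∈ D2.O ∧
      D2.redF (algebraMap Qb (FBar (M * q)) (q : Qb) * z⁻¹) ≠ 0 ∧
      (modX₂ D1 c).ord (D2.redF (algebraMap Qb (FBar (M * q)) (q : Qb) * z⁻¹)) = 1 := by
  obtain ⟨hw, ho⟩ := mod_reg_node hqM hA h1 h2 h5 hν2 hν3 hFk hzreg hz₁ hz₂ c hord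
  have e : algebraMap Qb (FBar (M * q)) (q : Qb) * z⁻¹ =
      ((algebraMap Qb (FBar (M * q)) (q : Qb))⁻¹ * z)⁻¹ := by
    rw [mul_inv, inv_inv]
  rw [e]
  refine ⟨D2.inv_mem_of_redF_ne_zero hw, ?_, ?_⟩
  · rw [D2.redF_inv hw]
    exact inv_ne_zero hw
  · rw [D2.redF_inv hw, (modX₂ D1 c).ord_inv, ho]
    rfl

end Modular

end Fermat.Agent.S44lib.H4
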