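/-
S44lib / H4 / KronOrd  (helper4)  — Project LSq, instance block (N4)(ii), orders at the nodes

Level `M q`, `κ = FRes A M`, `V = VqR hA : κ → κ` (`ḡ(t) ↦ ḡ(t^q)`), nodes `x₁ c = Fr (x₂ c)`.

* `frobCoeffInv`, `VqR_eq_pow`     : `V z = (z^{(1/q)}) ^ q` (coefficientwise inverse Frobenius twist), so
                                     `V κ ⊆ κ ^ q`;
* `VqR_eq_zero_or_two_le_ord`      : a zero of `V u` has order `≥ q ≥ 2`;
* `frobP_frobP_modX₁`              : `Fr (Fr (x₁ c)) = x₁ c`;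
* `hasValueAt_VqR_VqR_iff`         : `V (V h)` has the value `v` at `x₁ c` iff `h` has;
* **`ord_sub_VqR_VqR_eq_one`**     : if `h` has the value `v` at `x₁ c` and `h − v` is a uniformizer
                                     there, then `h − V (V h)` has a SIMPLE zero at `x₁ c`;
* `IsKronLike.hasValueAt_zero`     : every `z ∈ O₁ ∩ q O₂` regular off the cusps has `red₁ z (x₁ c) = 0`;
* **`kron₂_node`**                 : for a pair `(a, a')` with `FrobPair`, `g, g'` regular off the cusps and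
                                     `ḡ − v` a uniformizer at `x₁ c`: all the fields of the node
                                     coordinate `z = kron₂ a a'` at the node `c`
                                     (`red₁ z ≠ 0`, `ord_{x₁ c} red₁ z = 1`, `q / z ∈ O₂`,
                                     `red₂ (q / z) ≠ 0`, `ord_{x₂ c} red₂ (q / z) = 1`).
-/
import Fermat.Agent.S44lib.H4.KronPair
import Fermat.Agent.S44lib.H4.RegNode
import Fermat.Agent.S36lib.J.FrobSq
import Fermat.Agent.S36lib.Reg.Table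

set_option autoImplicit false
set_option linter.unusedSectionVars false
set_option linter.style.haveILetI false

noncomputable section

namespace Fermat.Agent.S44lib.H4

open AlgebraicCurve ModularCurve HahnSeries
open Fermat.Agent.S18lib Fermat.Agent.ProgramR Fermat.Agent.LSb Fermat.Agent.LSb.Unit

local notation "Qb" => AlgebraicClosure ℚ

variable {A : ValuationSubring (AlgebraicClosure ℚ)}

local notation "kA" => IsLocalRing.ResidueField A

/-! ### `V κ ⊆ κ ^ q` -/

section Vq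

variable {M q : ℕ} [NeZero M] [NeZero q] [hq : Fact q.Prime]

/-- the coefficientwise inverse Frobenius twist of `FRes A M` -/
def frobCoeffInv (hA : A.LiesOverPrime q) (z : FRes A M) : FRes A M :=
  haveI := Old.charP_kRes hA
  haveI : IsAlgClosed kA := Gink.isAlgClosed_residueField A
  haveI : ExpChar kA q := ExpChar.prime hq.out
  ⟨coeffMap ((frobeniusEquiv kA q).symm : kA →+* kA) (z : LaurentSeries kA),
    S37lib.C0.coeffMap_mem_fullC _ z.2⟩

/-- `V z = (z^{(1/q)}) ^ q` -/
theorem VqR_eq_pow (hA : A.LiesOverPrime q) (z : FRes A M) :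
    VqR hA z = frobCoeffInv hA z ^ q := by
  haveI := Old.charP_kRes hA
  haveI : IsAlgClosed kA := Gink.isAlgClosed_residueField A
  haveI : ExpChar kA q := ExpChar.prime hq.out
  apply Subtype.ext
  show ((Old.Vq M q A hA z : FRes A M) : LaurentSeries kA) = _
  rw [Old.coe_Vq, SubmonoidClass.coe_pow, S37lib.ConjNorm.pow_char_eq_qExpand q]
  congr 1
  show (z : LaurentSeries kA) = coeffMap (frobenius kA q)
    (coeffMap ((frobeniusEquiv kA q).symm : kA →+* kA) (z : LaurentSeries kA))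
  rw [coeffMap_coeffMap]
  ext n
  rw [coeffMap_coeff]
  show _ = frobenius kA q ((frobeniusEquiv kA q).symm ((z : LaurentSeries kA).coeff n))
  rw [frobenius_apply_frobeniusEquiv_symm]

theorem exists_VqR_eq_pow (hA : A.LiesOverPrime q) (z : FRes A M) :
    ∃ w : FRes A M, VqR hA z = w ^ q := ⟨frobCoeffInv hA z, VqR_eq_pow hA z⟩

/-- a zero of `V u` has order at least `q` -/
theorem VqR_eq_zero_or_le_ord (hA : A.LiesOverPrime q) (x : Place kA (FRes A M)) {u : FRes A M}
    (hu : HasValueAt x (VqR hA u) 0) : VqR hA u = 0 ∨ (q : ℤ) ≤ x.ord (VqR hA u) := by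
  obtain ⟨w, hw⟩ := exists_VqR_eq_pow hA u
  rw [hw] at hu ⊢
  rcases eq_or_ne w 0 with rfl | hw0
  · left
    exact zero_pow hq.out.ne_zero
  · right
    rcases hasValueAt_zero_iff.1 hu with h | h
    · exact absurd h (pow_ne_zero q hw0)
    · rw [S18lib.Cech.ord_pow] at h ⊢
      have hq0 : (0 : ℤ) < q := by exact_mod_cast hq.out.pos
      have h1 : 0 < x.ord w := by
        by_contra hle
        push Not at hle
        have : (q : ℤ) * x.ord w ≤ 0 := mul_nonpos_of_nonneg_of_nonpos hq0.le hle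
        omega
      nlinarith

/-- a zero of `V u` has order at least `2` -/
theorem VqR_eq_zero_or_two_le_ord (hA : A.LiesOverPrime q) (x : Place kA (FRes A M))
    {u : FRes A M} (hu : HasValueAt x (VqR hA u) 0) : VqR hA u = 0 ∨ 2 ≤ x.ord (VqR hA u) := by
  rcases VqR_eq_zero_or_le_ord hA x hu with h | h
  · exact Or.inl h
  · right
    have : (2 : ℤ) ≤ q := by exact_mod_cast hq.out.two_le
    omega

end Vq

/-! ### the nodes -/

section Node

variable {M q : ℕ} [NeZero M] [NeZero q] [hq : Fact q.Prime]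
variable [HasPrincipalDivisors (AlgebraicClosure ℚ) (FBar M)]
variable [HasPrincipalDivisors (AlgebraicClosure ℚ) (FBar (M * q))]
variable [HasPrincipalDivisors (IsLocalRing.ResidueField A) (FRes A M)]
variable (hqM : ¬ q ∣ M) (hA : A.LiesOverPrime q)
variable {D1 D2 : GaussDatum A (FBar (M * q)) (FRes A M)}
variable (h1 : Old.IsGaussOne D1) (h2 : Old.IsGaussTwo D1 D2 (wqR M q hqM))

include hqM h1 h2 in
/-- the nodes on the first component are fixed by the square of Frobenius -/
theorem frobP_frobP_modX₁ {gM : ℕ} (hFk : IsCurveOfGenus kA (FRes A M) gM)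
    (c : Fin (modS D1)) :
    S36lib.J.frobP hA (S36lib.J.frobP hA (modX₁ hA D1 c)) = modX₁ hA D1 c := by
  rw [S36lib.J.modX₁_eq_frobP, S36lib.J.frobP_frobP_modX₂ hqM hA h1 h2 hFk c]

include hqM h1 h2 in
/-- `V (V h)` has the value `v` at `x₁ c` iff `h` has -/
theorem hasValueAt_VqR_VqR_iff {gM : ℕ} (hFk : IsCurveOfGenus kA (FRes A M) gM)
    (c : Fin (modS D1)) (h : FRes A M) (v : kA) :
    HasValueAt (modX₁ hA D1 c) (VqR hA (VqR hA h)) v ↔ HasValueAt (modX₁ hA D1 c) h v := by
  rw [← S36lib.J.hasValueAt_frobP_iff, ← S36lib.J.hasValueAt_frobP_iff,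
    frobP_frobP_modX₁ hqM hA h1 h2 hFk c]

include hqM h1 h2 in
/-- **if `h − v` is a uniformizer at `x₁ c` then `h − V (V h)` has a simple zero at `x₁ c`** -/
theorem ord_sub_VqR_VqR_eq_one {gM : ℕ} (hFk : IsCurveOfGenus kA (FRes A M) gM)
    (c : Fin (modS D1)) {h : FRes A M} {v : kA}
    (hord : (modX₁ hA D1 c).ord (h - algebraMap kA (FRes A M) v) = 1) :
    (modX₁ hA D1 c).ord (h - VqR hA (VqR hA h)) = 1 := by
  have hu0 : HasValueAt (modX₁ hA D1 c) (h - algebraMap kA (FRes A M) v) 0 :=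
    hasValueAt_zero_iff.2 (Or.inr (by rw [hord]; norm_num))
  have hVV : VqR hA (VqR hA (h - algebraMap kA (FRes A M) v)) =
      VqR hA (VqR hA h) - algebraMap kA (FRes A M) v := by
    rw [map_sub, map_sub, VqR_algebraMap, VqR_algebraMap]
  have hVVu0 : HasValueAt (modX₁ hA D1 c)
      (VqR hA (VqR hA (h - algebraMap kA (FRes A M) v))) 0 :=
    (hasValueAt_VqR_VqR_iff hqM hA h1 h2 hFk c _ 0).2 hu0
  have e : h - VqR hA (VqR hA h) = (h - algebraMap kA (FRes A M) v) -
      VqR hA (VqR hA (h - algebraMap kA (FRes A M) v)) := by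
    rw [hVV]
    ring
  rw [e]
  exact S36lib.Reg.ord_sub_eq_one hord (VqR_eq_zero_or_two_le_ord hA _ hVVu0)

include hqM hA h1 h2 in
/-- every `z ∈ O₁ ∩ q O₂` regular off the cusps has `z ∈ O₂` with `red₂ z = 0` -/
theorem IsKronLike.mem₂ {z : FBar (M * q)} (hz : IsKronLike D1 D2 z) :
    z ∈ D2.O ∧ D2.redF z = 0 := by
  have hq0 : (q : Qb) ≠ 0 := by exact_mod_cast hq.out.ne_zero
  have eq : ((((q : ℕ) : A) : A) : Qb) = (q : Qb) := by push_cast; rfl
  have e : z = algebraMap Qb (FBar (M * q)) ((((q : ℕ) : A) : A) : Qb) *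
      ((algebraMap Qb (FBar (M * q)) (q : Qb))⁻¹ * z) := by
    rw [eq, ← mul_assoc, mul_inv_cancel₀ ((map_ne_zero _).2 hq0), one_mul]
  constructor
  · rw [e]
    exact D2.smul_mem ((q : ℕ) : A) hz.div_mem₂
  · rw [e, D2.redF_smul ((q : ℕ) : A) hz.div_mem₂, residue_natCast_eq_zero hA, Algebra.smul_def,
      map_zero, zero_mul]

include hqM h1 h2 in
/-- **every `z ∈ O₁ ∩ q O₂` regular off the cusps has `red₁ z = 0` at every node `x₁ c`** -/
theorem IsKronLike.hasValueAt_zero {gM : ℕ} (hFk : IsCurveOfGenus kA (FRes A M) gM)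
    {z : FBar (M * q)} (hz : IsKronLike D1 D2 z) (c : Fin (modS D1)) :
    HasValueAt (modX₁ hA D1 c) (D1.redF z) 0 := by
  obtain ⟨hz2, hred2⟩ := hz.mem₂ hqM hA h1 h2
  obtain ⟨α, hα₁, hα₂⟩ := S36lib.J.mod_glue_regAway hqM hA h1 h2 hFk hz.reg hz.mem₁ hz2 c
  rw [hred2] at hα₂
  have hα : α = 0 := hα₂.unique LSb.hasValueAt_zero
  rw [hα] at hα₁
  exact hα₁

include hqM h1 h2 in
/-- **the node coordinate `kron₂ a a'` at the node `c`** (`q ≥ 5`, `M` elliptic-free): for a pair
`(a, a')` with `FrobPair`, `g`, `g'` regular off the cusps, `ḡ − v` a uniformizer at `x₁ c` -/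
theorem kron₂_node (h5 : 5 ≤ q) (hν2 : nuTwo M = 0) (hν3 : nuThree M = 0) {gM : ℕ}
    (hFk : IsCurveOfGenus kA (FRes A M) gM) {a a' : V.IntRing M A}
    (hp : FrobPair q a.1 a'.1)
    (hreg : V.elemL a ∈ regAway Qb (Gin0.jF M)) (hreg' : V.elemL a' ∈ regAway Qb (Gin0.jF M))
    (c : Fin (modS D1)) {v : kA}
    (hord : (modX₁ hA D1 c).ord (V.elemK a - algebraMap kA (FRes A M) v) = 1) :
    D1.redF (kron₂ M q a a') ≠ 0 ∧
      (modX₁ hA D1 c).ord (D1.redF (kron₂ M q a a')) = 1 ∧
      algebraMap Qb (FBar (M * q)) (q : Qb) * (kron₂ M q a a')⁻¹ ∈ D2.O ∧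
      D2.redF (algebraMap Qb (FBar (M * q)) (q : Qb) * (kron₂ M q a a')⁻¹) ≠ 0 ∧
      (modX₂ D1 c).ord (D2.redF (algebraMap Qb (FBar (M * q)) (q : Qb) * (kron₂ M q a a')⁻¹)) = 1 := by
  have hK := isKronLike_kron₂ hqM hA h1 h2 hp hreg hreg'
  have ho : (modX₁ hA D1 c).ord (D1.redF (kron₂ M q a a')) = 1 := by
    rw [redF₁_kron₂_of_frobPair hA h1 hp]
    exact ord_sub_VqR_VqR_eq_one hqM hA h1 h2 hFk c hord
  have hne : D1.redF (kron₂ M q a a') ≠ 0 := by
    intro h0
    rw [h0, Place.ord_zero] at ho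
    exact zero_ne_one ho
  exact ⟨hne, ho, mod_reg_node' hqM hA h1 h2 h5 hν2 hν3 hFk hK.reg hne hK.div_mem₂ c ho⟩

end Node

end Fermat.Agent.S44lib.H4
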