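/-
S44lib / H4 / ModCoord  (helper4)  — Project LSq, instance block (N4): the final assembly

For helper6's concrete nodal package `Kap.modNod hqM hA` (`V₁ = Kap.modD1`, `V₂ = Kap.modD2'`, frame
`Y = P₁ + P₂`) at an elliptic-free level `M` (`nuTwo M = nuThree M = 0`), `q ≥ 5`:

* `modRPlace hqM hA`             : the place map `rOf` of the package (`none` = the place reduces to a node);
* `rOf_ne_none_of_pole`          : a pole of a function regular off the cusps reduces to a smooth point;
* **`unifCoord_of_isKronLike`**  : every `z ∈ O₁ ∩ q O₂`, regular off the cusps (`IsKronLike`), whose first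
                                   reduction has a SIMPLE zero at every node point `x₁ c`, is a uniform
                                   coordinate: `Ann.UnifCoord (Kap.modNod hqM hA) (modRPlace hqM hA) q z`.
  Hence `Ann.annOfNCtx` gives the annulus datum with `GlueAnn` and `SlopeLaw` (`modAnn`).
-/
import Fermat.Agent.S44lib.H4.KronOrd
import Fermat.Agent.S44lib.Ann.OfNCtx
import Fermat.Agent.S44lib.Kap.ModInst

set_option autoImplicit false
set_option linter.unusedSectionVars false
set_option linter.style.haveILetI false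

noncomputable section

namespace Fermat.Agent.S44lib.H4

open AlgebraicCurve ModularCurve
open Fermat.Agent.S18lib Fermat.Agent.ProgramR Fermat.Agent.LSb Fermat.Agent.LSb.Unit
open Fermat.Agent.S33lib Fermat.Agent.S33lib.NRed

local notation "Qb" => AlgebraicClosure ℚ

variable {M q : ℕ} [NeZero M] [NeZero q] [hq : Fact q.Prime]
variable {A : ValuationSubring (AlgebraicClosure ℚ)}

local notation "kA" => IsLocalRing.ResidueField A

variable (hqM : ¬ q ∣ M) (hA : A.LiesOverPrime q)

/-- **the place map of the modular nodal package** (`none` = the place reduces to a node) -/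
def modRPlace : Place Qb (FBar (M * q)) → Option (N.Pt A (FRes A M) (FRes A M)) :=
  rOf (Kap.modNod hqM hA) ((Kap.modNod hqM hA).chartDiv 1 1) ((Kap.modNod hqM hA).chartDiv₁ 1 1)
    ((Kap.modNod hqM hA).chartDiv₂ 1 1) (Kap.modGk hqM hA) (Kap.modGk hqM hA)

variable (h5 : 5 ≤ q)

include h5 in
/-- a pole of a function regular off the cusps reduces to a smooth point -/
theorem rOf_ne_none_of_pole {z : FBar (M * q)} (hz : z ∈ regAway Qb (Gin0.jF (M * q)))
    {P : Place Qb (FBar (M * q))} (hP : P.ord z < 0) : modRPlace hqM hA P ≠ none := by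
  letI := Kap.modHpdK hqM hA
  haveI := Kap.modInfinite (A := A)
  have hC := (Kap.modCtx hqM hA h5).toNCtx
  -- `P` is a pole of `j`
  have hj : Gin0.jF (M * q) ∉ P.toValuationSubring := by
    intro hmem
    have := hz P hmem
    exact absurd ((Tame.ord_neg_iff_not_mem P).1 hP) (not_not.2 this)
  have hjord : P.ord (Gin0.jF (M * q)) < 0 := (Tame.ord_neg_iff_not_mem P).2 hj
  -- so `Y P ≠ 0`
  have hY : ((Kap.modNod hqM hA).chartDiv 1 1) P ≠ 0 := by
    have h1 : (Kap.modNod hqM hA).P₁ P = max (-P.ord (Gin0.jF (M * q))) 0 := polesOf_apply _ P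
    have h2 : 0 ≤ (Kap.modNod hqM hA).P₂ P := by
      have e : (Kap.modNod hqM hA).P₂ P = max (P.ord (Gin0.jF (M * q) -
          algebraMap Qb (FBar (M * q)) ((c0 hA (Kap.modD1 hqM hA) : A) : Qb))) 0 :=
        zerosOf_apply _ P
      rw [e]
      exact le_max_right _ _
    rw [NodalDatum.chartDiv, one_smul, one_smul, Finsupp.add_apply, h1, max_eq_left (by omega)]
    omega
  rw [modRPlace, Ne, rOf_eq_none_iff, not_not]
  exact smoothRed_of_Y_ne_zero hC hY

include h5 in
/-- **the uniform coordinate of the modular nodal package** from an `IsKronLike` function whose first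
reduction has a simple zero at every node point `x₁ c` (`q ≥ 5`, `M` elliptic-free) -/
theorem unifCoord_of_isKronLike (hν2 : nuTwo M = 0) (hν3 : nuThree M = 0) {z : FBar (M * q)}
    (hz : IsKronLike (Kap.modD1 hqM hA) (Kap.modD2' hqM hA) z)
    (hord : ∀ c : Fin (modS (Kap.modD1 hqM hA)),
      (modX₁ hA (Kap.modD1 hqM hA) c).ord ((Kap.modD1 hqM hA).redF z) = 1) :
    Ann.UnifCoord (Kap.modNod hqM hA) (modRPlace hqM hA) ((q : ℕ) : Qb) z := by
  letI := Kap.modHpdK hqM hA
  haveI : HasPrincipalDivisors Qb (FBar M) :=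
    (Gin0.exists_isCurveOfGenus_FBar M).choose_spec.1.hasPrincipalDivisors
  have h1 := Kap.modD1_isGaussOne hqM hA
  have h2 := Kap.modD2'_isGaussTwo hqM hA
  have hFk := Kap.modGk_spec hqM hA
  have hq0 : ((q : ℕ) : Qb) ≠ 0 := by exact_mod_cast hq.out.ne_zero
  -- there is a node
  have hs : 0 < modS (Kap.modD1 hqM hA) := modS_pos hA h1 hFk
  have hne : (Kap.modD1 hqM hA).redF z ≠ 0 := by
    intro h0
    have := hord ⟨0, hs⟩
    rw [h0, Place.ord_zero] at this
    exact zero_ne_one this
  refine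
    { pi_ne_zero := hq0
      pi_lt_one := (A.mem_nonunits_iff).mp hA
      z_pole := fun P hP => rOf_ne_none_of_pole hqM hA h5 hz.reg hP
      z_red₁ := hne
      z_ord₁ := hord
      z'_red₂ := ?_
      z'_ord₂ := ?_ }
  · exact (mod_reg_node' hqM hA h1 h2 h5 hν2 hν3 hFk hz.reg hne hz.div_mem₂ ⟨0, hs⟩
      (hord ⟨0, hs⟩)).2.1
  · intro c
    exact (mod_reg_node' hqM hA h1 h2 h5 hν2 hν3 hFk hz.reg hne hz.div_mem₂ c (hord c)).2.2

/-- square roots in `ℚ̄` -/
theorem exists_sqrt_Qb (a : Qb) : ∃ b : Qb, b * b = a := by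
  obtain ⟨b, hb⟩ := IsAlgClosed.exists_pow_nat_eq a (n := 2) (by norm_num)
  exact ⟨b, by rw [← hb]; ring⟩

/-- **the annulus datum of the modular nodal package** for a uniform coordinate `z` -/
def modAnn (hν2 : nuTwo M = 0) (hν3 : nuThree M = 0) {z : FBar (M * q)}
    (hz : IsKronLike (Kap.modD1 hqM hA) (Kap.modD2' hqM hA) z)
    (hord : ∀ c : Fin (modS (Kap.modD1 hqM hA)),
      (modX₁ hA (Kap.modD1 hqM hA) c).ord ((Kap.modD1 hqM hA).redF z) = 1) :
    letI := Kap.modHpdK hqM hA
    Ann.AnnDatum A (FBar (M * q)) (FRes A M) (FRes A M) :=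
  letI := Kap.modHpdK hqM hA
  haveI := Kap.modInfinite (A := A)
  Ann.annOfNCtx (Kap.modCtx hqM hA h5).toNCtx
    (unifCoord_of_isKronLike hqM hA h5 hν2 hν3 hz hord) (Kap.modCtx hqM hA h5) exists_sqrt_Qb

section

variable (hν2 : nuTwo M = 0) (hν3 : nuThree M = 0) {z : FBar (M * q)}
  (hz : IsKronLike (Kap.modD1 hqM hA) (Kap.modD2' hqM hA) z)
  (hord : ∀ c : Fin (modS (Kap.modD1 hqM hA)),
    (modX₁ hA (Kap.modD1 hqM hA) c).ord ((Kap.modD1 hqM hA).redF z) = 1)

theorem modAnn_toNRedDatum :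
    (modAnn hqM hA h5 hν2 hν3 hz hord).toNRedDatum = Kap.modNRed hqM hA h5 := rfl

theorem modAnn_z (c : Fin (modS (Kap.modD1 hqM hA))) :
    (modAnn hqM hA h5 hν2 hν3 hz hord).z c = z := rfl

theorem modAnn_pi (c : Fin (modS (Kap.modD1 hqM hA))) :
    (modAnn hqM hA h5 hν2 hν3 hz hord).pi c = ((q : ℕ) : Qb) := rfl

theorem modAnn_glueAnn : (modAnn hqM hA h5 hν2 hν3 hz hord).GlueAnn :=
  letI := Kap.modHpdK hqM hA
  haveI := Kap.modInfinite (A := A)
  Ann.annOfNCtx_glueAnn _ _ _ _

theorem modAnn_slopeLaw : (modAnn hqM hA h5 hν2 hν3 hz hord).SlopeLaw :=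
  letI := Kap.modHpdK hqM hA
  haveI := Kap.modInfinite (A := A)
  Ann.annOfNCtx_slopeLaw _ _ _ _

end

end Fermat.Agent.S44lib.H4
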