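/-
S44lib / H4 / ModCoordZ  (helper4)  — Project LSq, instance block (N4): EXISTENCE of the uniform coordinate

Level `M q`, `q ≥ 5`, `M` elliptic-free, concrete package `Kap.modNModInst hqM hA h5`
(`D1 = Kap.modD1`, `D2 = Kap.modD2'`).

* `KronLift hA D1 D2`      : the lifting statement delivered by helper1's `AnnInst/Coord.exists_kronLike`:
                             every `u ∈ FRes A M` regular off the cusps has an inertia-fixed `IsKronLike`
                             function `z` with `red₁ z = u − V (V u)`;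
* `exists_node_coordinate` : (GEN) for the nodes: `u ∈ regAway kA j̄` with a SIMPLE zero at every `x₁ c`;
* **`exists_unifCoord`**   : `KronLift → ∃ z, Ann.UnifCoord (Kap.modNod hqM hA) (Kap.modNModInst …).D.r q z ∧
                             ∀ σ ∈ IA A, galAutBar (M q) σ • z = z`  — the two `z`-inputs `hz`, `hzfix` of
                             helper7's `M.mprime_mod`.
-/
import Fermat.Agent.S44lib.H4.ModCoord
import Fermat.Agent.S44lib.H4.Generic

set_option autoImplicit false
set_option linter.unusedSectionVars false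
set_option linter.style.haveILetI false

noncomputable section

namespace Fermat.Agent.S44lib.H4

open AlgebraicCurve ModularCurve
open Fermat.Agent.S18lib Fermat.Agent.ProgramR Fermat.Agent.LSb Fermat.Agent.LSb.Unit
open Fermat.Agent.S33lib Fermat.Agent.S33lib.NRed Fermat.Agent.S29lib.GH

local notation "Qb" => AlgebraicClosure ℚ

variable {M q : ℕ} [NeZero M] [NeZero q] [hq : Fact q.Prime]
variable {A : ValuationSubring (AlgebraicClosure ℚ)}

local notation "kA" => IsLocalRing.ResidueField A

/-- **the lifting statement** (helper1's `AnnInst/Coord.exists_kronLike`): every `u ∈ FRes A M` regular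
off the cusps is `red₁ z + V (V u)` for an inertia-fixed `z ∈ O₁ ∩ q O₂` regular off the cusps -/
def KronLift (hA : A.LiesOverPrime q) (D1 D2 : GaussDatum A (FBar (M * q)) (FRes A M)) : Prop :=
  ∀ u : FRes A M, u ∈ regAway kA (Gink.jK A M) →
    ∃ z : FBar (M * q), IsKronLike D1 D2 z ∧ D1.redF z = u - VqR hA (VqR hA u) ∧
      ∀ σ ∈ A.inertiaSubgroupIn ℚ, galAutBar (M * q) σ • z = z

section Nodes

variable [HasPrincipalDivisors (AlgebraicClosure ℚ) (FBar M)]
variable [HasPrincipalDivisors (AlgebraicClosure ℚ) (FBar (M * q))]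
variable [HasPrincipalDivisors (IsLocalRing.ResidueField A) (FRes A M)]
variable (hqM : ¬ q ∣ M) (hA : A.LiesOverPrime q)
variable {D1 : GaussDatum A (FBar (M * q)) (FRes A M)} (h1 : Old.IsGaussOne D1)

include hqM h1 in
/-- **(GEN) at the nodes**: one function of `FRes A M`, regular off the cusps, with a simple zero at every
node point `x₁ c` -/
theorem exists_node_coordinate {gM : ℕ} (hFk : IsCurveOfGenus kA (FRes A M) gM) :
    ∃ u ∈ regAway kA (Gink.jK A M), ∀ c : Fin (modS D1), (modX₁ hA D1 c).ord u = 1 := by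
  classical
  haveI : IsAlgClosed kA := Gink.isAlgClosed_residueField A
  haveI : Infinite kA := IsAlgClosed.instInfinite
  have hdeg : 0 < Divisor.degree (polesOf (K := kA) (Gink.jK A M)) := by
    have := Old.degree_polesOf_redF₁_pos (D1 := D1) hqM hA h1
    rwa [redF_jF₁ hqM hA h1] at this
  obtain ⟨u, hu, -, huS⟩ := exists_simple_zeros hFk (Gink.jK A M) hdeg
    (Finset.univ.image (modX₁ hA D1)) (by
      intro x hx
      obtain ⟨c, -, rfl⟩ := Finset.mem_image.1 hx
      exact (mem_nodeSet.1 (S36lib.Count.modX₁_mem hA h1 c)).1)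
  exact ⟨u, hu, fun c => huS _ (Finset.mem_image.2 ⟨c, Finset.mem_univ c, rfl⟩)⟩

end Nodes

variable (hqM : ¬ q ∣ M) (hA : A.LiesOverPrime q) (h5 : 5 ≤ q)

theorem modRPlace_eq : modRPlace hqM hA = (Kap.modNModInst hqM hA h5).D.r := rfl

include h5 in
/-- **EXISTENCE OF THE UNIFORM COORDINATE** of the concrete nodal package (`q ≥ 5`, `M` elliptic-free),
from the lifting statement: the inputs `hz`, `hzfix` of `M.mprime_mod` -/
theorem exists_unifCoord (hν2 : nuTwo M = 0) (hν3 : nuThree M = 0)
    (hK : KronLift hA (Kap.modD1 hqM hA) (Kap.modD2' hqM hA)) :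
    ∃ z : FBar (M * q),
      Ann.UnifCoord (Kap.modNod hqM hA) (Kap.modNModInst hqM hA h5).D.r ((q : ℕ) : Qb) z ∧
      IsKronLike (Kap.modD1 hqM hA) (Kap.modD2' hqM hA) z ∧
      ∀ σ ∈ A.inertiaSubgroupIn ℚ, galAutBar (M * q) σ • z = z := by
  letI := Kap.modHpdK hqM hA
  haveI : HasPrincipalDivisors Qb (FBar M) :=
    (Gin0.exists_isCurveOfGenus_FBar M).choose_spec.1.hasPrincipalDivisors
  have h1 := Kap.modD1_isGaussOne hqM hA
  have h2 := Kap.modD2'_isGaussTwo hqM hA
  have hFk := Kap.modGk_spec hqM hA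
  obtain ⟨u, hu, hord⟩ := exists_node_coordinate hqM hA h1 hFk
  obtain ⟨z, hz, hred, hfix⟩ := hK u hu
  have hordz : ∀ c : Fin (modS (Kap.modD1 hqM hA)),
      (modX₁ hA (Kap.modD1 hqM hA) c).ord ((Kap.modD1 hqM hA).redF z) = 1 := by
    intro c
    rw [hred]
    refine ord_sub_VqR_VqR_eq_one hqM hA h1 h2 hFk c (v := 0) ?_
    rw [map_zero, sub_zero]
    exact hord c
  exact ⟨z, unifCoord_of_isKronLike hqM hA h5 hν2 hν3 hz hordz, hz, hfix⟩

end Fermat.Agent.S44lib.H4
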